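/-
S55 / F-abs / FO-Defs : the spaces `h⁰(N) = H⁰(G, N')`, `c⁰(N) = ∏_v H⁰(D_v, N')`, the pairing
`lam : P²(N) → c⁰(N)^∨`, and the local connecting map `P¹(M) → P²(R)`.
-/
import Fermat.Agent.S55.F.T3

set_option autoImplicit false

namespace Fermat.Agent.S55.F

open Representation Module

noncomputable section

namespace Datum

variable {p : ℕ} [Fact p.Prime] (A : Datum p)
variable {N N' : Type} [AddCommGroup N] [Module (ZMod p) N] [AddCommGroup N'] [Module (ZMod p) N']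

/-- `H⁰(G, N')` -/
abbrev h0 (ρ : Representation (ZMod p) A.G N) : Type := (dt A.ω ρ).invariants

/-- `∏_v H⁰(D_v, N')` -/
abbrev c0 (ρ : Representation (ZMod p) A.G N) : Type :=
  ∀ v, (res (A.r v) (dt A.ω ρ)).invariants

/-- restriction `H⁰(G, N') → ∏_v H⁰(D_v, N')` -/
def r0 (ρ : Representation (ZMod p) A.G N) : A.h0 ρ →ₗ[ZMod p] A.c0 ρ :=
  LinearMap.pi fun v => invRes (A.r v) (dt A.ω ρ)

/-- contravariant functoriality -/
def h0map {ρ : Representation (ZMod p) A.G N} {σ : Representation (ZMod p) A.G N'}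
    (f : ρ.IntertwiningMap σ) : A.h0 σ →ₗ[ZMod p] A.h0 ρ := invMap (dtMap A.ω f)

def c0map {ρ : Representation (ZMod p) A.G N} {σ : Representation (ZMod p) A.G N'}
    (f : ρ.IntertwiningMap σ) : A.c0 σ →ₗ[ZMod p] A.c0 ρ :=
  LinearMap.pi fun v => invMap (resMap (A.r v) (dtMap A.ω f)) ∘ₗ LinearMap.proj v

/-- the pairing `⟨z, φ⟩ = ∑_v tr_v ((φ_v)_* z_v)` -/
def lam (trv : ∀ v, (A.CD v).H2 (res (A.r v) (mu A.ω)) →ₗ[ZMod p] ZMod p)
    (ρ : Representation (ZMod p) A.G N) : A.P2 ρ →ₗ[ZMod p] Module.Dual (ZMod p) (A.c0 ρ) :=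
  LinearMap.mk₂ (ZMod p)
    (fun z φ => ∑ v, trv v ((A.CD v).map2 (invDtRes A.ω (A.r v) ρ (φ v)) (z v)))
    (fun z z' φ => by simp [Finset.sum_add_distrib])
    (fun c z φ => by simp [Finset.mul_sum])
    (fun z φ ψ => by simp [Finset.sum_add_distrib])
    (fun c z φ => by simp [Finset.mul_sum])

@[simp] theorem lam_apply (trv : ∀ v, (A.CD v).H2 (res (A.r v) (mu A.ω)) →ₗ[ZMod p] ZMod p)
    (ρ : Representation (ZMod p) A.G N) (z : A.P2 ρ) (φ : A.c0 ρ) :
    A.lam trv ρ z φ = ∑ v, trv v ((A.CD v).map2 (invDtRes A.ω (A.r v) ρ (φ v)) (z v)) := rfl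

/-- the product of the local connecting maps `∂ : P¹(M) → P²(R)` -/
def dP {R P M : Type} [AddCommGroup R] [Module (ZMod p) R] [AddCommGroup P] [Module (ZMod p) P]
    [AddCommGroup M] [Module (ZMod p) M] {ρR : Representation (ZMod p) A.G R}
    {ρP : Representation (ZMod p) A.G P} {ρM : Representation (ZMod p) A.G M}
    (S : SES ρR ρP ρM) : A.P1 ρM →ₗ[ZMod p] A.P2 ρR :=
  LinearMap.pi fun v => (A.CD v).δ1 (S.res (A.r v)) ∘ₗ LinearMap.proj v

end Datum

end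

end Fermat.Agent.S55.F
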