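/-
S55 / F-abs / FO-Lam : properties of the pairing `lam`.
-/
import Fermat.Agent.S55.F.FO.Defs
import Fermat.Agent.S55.F.GD

set_option autoImplicit false

namespace Fermat.Agent.S55.F

open Representation Module

noncomputable section

namespace Datum

variable {p : ℕ} [Fact p.Prime] {A : Datum p}
variable {N N' : Type} [AddCommGroup N] [Module (ZMod p) N] [AddCommGroup N'] [Module (ZMod p) N']

theorem r0_injective (hne : Nonempty A.ι) (ρ : Representation (ZMod p) A.G N) :
    Function.Injective (A.r0 ρ) := by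
  intro x y h
  obtain ⟨v⟩ := hne
  have h1 := congrArg Subtype.val (congrFun h v)
  exact Subtype.ext h1

theorem c0map_r0 {ρ : Representation (ZMod p) A.G N} {σ : Representation (ZMod p) A.G N'}
    (f : ρ.IntertwiningMap σ) (x : A.h0 σ) : A.c0map f (A.r0 σ x) = A.r0 ρ (A.h0map f x) := rfl

/-- `lam` evaluated on a vector supported at one place -/
theorem lam_single [DecidableEq A.ι]
    (trv : ∀ v, (A.CD v).H2 (res (A.r v) (mu A.ω)) →ₗ[ZMod p] ZMod p)
    (ρ : Representation (ZMod p) A.G N) (z : A.P2 ρ) (v : A.ι)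
    (ψ : (res (A.r v) (dt A.ω ρ)).invariants) :
    A.lam trv ρ z (Pi.single v ψ) = trv v ((A.CD v).map2 (invDtRes A.ω (A.r v) ρ ψ) (z v)) := by
  rw [lam_apply, Finset.sum_eq_single v]
  · rw [Pi.single_eq_same]
  · intro w _ hw
    rw [Pi.single_eq_of_ne hw, map_zero, map_zero, LinearMap.zero_apply, map_zero]
  · intro h
    exact absurd (Finset.mem_univ v) h

/-- `lam` is a perfect pairing (product of the local dualities) -/
theorem Numbers.lam_bijective (hN : A.Numbers)
    (trv : ∀ v, (A.CD v).H2 (res (A.r v) (mu A.ω)) →ₗ[ZMod p] ZMod p) (htr : ∀ v, trv v ≠ 0)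
    [Module.Finite (ZMod p) N] (ρ : Representation (ZMod p) A.G N) (hρ : A.CG.IsOpen ρ.ker) :
    Function.Bijective (A.lam trv ρ) := by
  classical
  have hb : ∀ v, Function.Bijective
      ((hN.loc v).rfun.alpha (A.ω.comp (A.r v)) (trv v) (res (A.r v) ρ)) := fun v =>
    (hN.loc v).alpha_bijective (trv v) (htr v) (res (A.r v) ρ) (A.isOpen_ker_res ρ hρ v)
  constructor
  · rw [injective_iff_map_eq_zero]
    intro z hz
    funext v
    apply (injective_iff_map_eq_zero _).mp (hb v).1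
    refine LinearMap.ext fun ψ => ?_
    have h1 := lam_single trv ρ z v ((invDtRes A.ω (A.r v) ρ).symm ψ)
    rw [hz, LinearMap.zero_apply] at h1
    exact h1.symm
  · intro Λ
    have hz : ∀ v, ∃ zv : (A.CD v).H2 (res (A.r v) ρ),
        (hN.loc v).rfun.alpha (A.ω.comp (A.r v)) (trv v) (res (A.r v) ρ) zv =
          (Λ ∘ₗ LinearMap.single (ZMod p) (fun v => (res (A.r v) (dt A.ω ρ)).invariants) v) ∘ₗ
            (invDtRes A.ω (A.r v) ρ).symm.toLinearMap := fun v => (hb v).2 _
    choose z hz using hz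
    refine ⟨z, LinearMap.ext fun φ => ?_⟩
    rw [lam_apply]
    have h1 : ∀ v, trv v ((A.CD v).map2 (invDtRes A.ω (A.r v) ρ (φ v)) (z v)) =
        Λ (Pi.single v (φ v)) := by
      intro v
      have h2 := LinearMap.congr_fun (hz v) (invDtRes A.ω (A.r v) ρ (φ v))
      exact h2
    simp only [h1]
    rw [← map_sum, Finset.univ_sum_single]

/-- naturality -/
theorem lam_P2map (trv : ∀ v, (A.CD v).H2 (res (A.r v) (mu A.ω)) →ₗ[ZMod p] ZMod p)
    {ρ : Representation (ZMod p) A.G N} {σ : Representation (ZMod p) A.G N'}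
    (f : ρ.IntertwiningMap σ) (z : A.P2 ρ) (φ : A.c0 σ) :
    A.lam trv σ (A.P2map f z) φ = A.lam trv ρ z (A.c0map f φ) := by
  rw [lam_apply, lam_apply]
  refine Finset.sum_congr rfl fun v _ => ?_
  have h1 : invDtRes A.ω (A.r v) ρ (A.c0map f φ v) =
      (invDtRes A.ω (A.r v) σ (φ v)).comp (resMap (A.r v) f) := rfl
  rw [h1, (A.CD v).map2_comp, P2map_apply, LinearMap.comp_apply]

/-- reformulation of `Numbers.duality` in terms of `lam` -/
theorem Numbers.exists_trv (hN : A.Numbers) :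
    ∃ trv : ∀ v, (A.CD v).H2 (res (A.r v) (mu A.ω)) →ₗ[ZMod p] ZMod p, (∀ v, trv v ≠ 0) ∧
      ∀ {N : Type} [AddCommGroup N] [Module (ZMod p) N] [Module.Finite (ZMod p) N]
        (ρ : Representation (ZMod p) A.G N), A.CG.IsOpen ρ.ker → ∀ z : A.P2 ρ,
        (z ∈ LinearMap.range (A.locTot2 ρ) ↔ ∀ x : A.h0 ρ, A.lam trv ρ z (A.r0 ρ x) = 0) := by
  obtain ⟨trv, htr, h⟩ := hN.duality
  refine ⟨trv, htr, fun {N} _ _ _ ρ hρ z => ?_⟩
  rw [h ρ hρ z]
  constructor
  · intro h1 x
    exact h1 (invDt A.ω ρ x)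
  · intro h1 φ
    have h2 := h1 ((invDt A.ω ρ).symm φ)
    exact h2

end Datum

end

end Fermat.Agent.S55.F
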