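/-
S55 / F-abs / FO-c : `ker(Ш¹(A) → H¹(B))` for a short exact sequence `0 → A → B → C → 0`, via `δ⁰`.
-/
import Fermat.Agent.S55.F.T3

set_option autoImplicit false

namespace Fermat.Agent.S55.F

open Representation Module

noncomputable section

namespace Datum

variable {p : ℕ} [Fact p.Prime] {A : Datum p}
variable {N N' : Type} [AddCommGroup N] [Module (ZMod p) N] [AddCommGroup N'] [Module (ZMod p) N']

variable {X Y Z : Type} [AddCommGroup X] [Module (ZMod p) X] [AddCommGroup Y] [Module (ZMod p) Y]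
  [AddCommGroup Z] [Module (ZMod p) Z] {ρX : Representation (ZMod p) A.G X}
  {ρY : Representation (ZMod p) A.G Y} {ρZ : Representation (ZMod p) A.G Z}

/-- rank-nullity for the restriction of a linear map to a submodule containing the kernel -/
theorem Sha1_finrank_map_add {k V W : Type*} [Field k] [AddCommGroup V] [Module k V]
    [AddCommGroup W] [Module k W] [Module.Finite k V] (f : V →ₗ[k] W) (E : Submodule k V)
    (hE : LinearMap.ker f ≤ E) :
    finrank k (E.map f) + finrank k (LinearMap.ker f) = finrank k E := by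
  have h := LinearMap.finrank_range_add_finrank_ker (f.domRestrict E)
  rw [LinearMap.range_domRestrict, LinearMap.ker_domRestrict,
    (Submodule.comapSubtypeEquivOfLe hE).finrank_eq] at h
  exact h

/-- the locally liftable invariants are those whose `δ⁰` is locally trivial -/
theorem Sha1_map_δ0 (S : SES ρX ρY ρZ) (hY : A.CG.IsOpen ρY.ker) :
    (⨅ v, (LinearMap.range (invMap (resMap (A.r v) S.π))).comap
        (invRes (A.r v) ρZ) : Submodule _ ρZ.invariants).map (A.CG.δ0 S) =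
      A.sha1 ρX ⊓ LinearMap.ker (A.CG.map1 S.i) := by
  have hloc : ∀ (v : A.ι) (z : ρZ.invariants),
      (A.loc v).loc1 ρX (A.CG.δ0 S z) = 0 ↔
        invRes (A.r v) ρZ z ∈ LinearMap.range (invMap (resMap (A.r v) S.π)) := by
    intro v z
    rw [(A.loc v).loc1_δ0 S hY z]
    exact (A.CD v).exact_inv_δ0 (S.res (A.r v)) (A.isOpen_ker_res ρY hY v) _
  apply le_antisymm
  · rintro _ ⟨z, hz, rfl⟩
    rw [SetLike.mem_coe, Submodule.mem_iInf] at hz
    refine Submodule.mem_inf.mpr ⟨?_, ?_⟩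
    · rw [sha1, LinearMap.mem_ker]
      ext v
      rw [locTot1_apply]
      exact (hloc v z).mpr (hz v)
    · rw [LinearMap.mem_ker]
      exact (A.CG.exact_δ0_map1 S hY _).mpr ⟨z, rfl⟩
  · rintro x ⟨hx1, hx2⟩
    obtain ⟨z, rfl⟩ := (A.CG.exact_δ0_map1 S hY x).mp hx2
    refine ⟨z, ?_, rfl⟩
    rw [SetLike.mem_coe, Submodule.mem_iInf]
    intro v
    refine (hloc v z).mp ?_
    have h := congrFun (LinearMap.mem_ker.mp hx1) v
    rwa [locTot1_apply] at h

theorem Sha1_ker_δ0 (S : SES ρX ρY ρZ) (hY : A.CG.IsOpen ρY.ker) :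
    LinearMap.ker (A.CG.δ0 S) = LinearMap.range (invMap S.π) :=
  LinearMap.exact_iff.mp (A.CG.exact_inv_δ0 S hY)

/-- `dim (Ш¹(X) ∩ ker(H¹X → H¹Y)) + dim im(Y^G → Z^G) = dim {z ∈ Z^G : locally liftable}` -/
theorem finrank_sha1_inf_ker (S : SES ρX ρY ρZ) (hY : A.CG.IsOpen ρY.ker)
    [Module.Finite (ZMod p) Z] :
    finrank (ZMod p) (A.sha1 ρX ⊓ LinearMap.ker (A.CG.map1 S.i) : Submodule _ (A.CG.H1 ρX)) +
        finrank (ZMod p) (LinearMap.range (invMap S.π)) =
      finrank (ZMod p) (⨅ v, (LinearMap.range (invMap (resMap (A.r v) S.π))).comap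
        (invRes (A.r v) ρZ) : Submodule _ ρZ.invariants) := by
  rw [← Sha1_map_δ0 S hY, ← Sha1_ker_δ0 S hY]
  apply Sha1_finrank_map_add
  rw [Sha1_ker_δ0 S hY]
  rintro _ ⟨y, rfl⟩
  rw [Submodule.mem_iInf]
  intro v
  exact ⟨invRes (A.r v) ρY y, rfl⟩

/-- `dim ker(H¹X → H¹Y) + dim im(Y^G → Z^G) = dim Z^G` -/
theorem finrank_ker_map1 (S : SES ρX ρY ρZ) (hY : A.CG.IsOpen ρY.ker)
    [Module.Finite (ZMod p) Z] :
    finrank (ZMod p) (LinearMap.ker (A.CG.map1 S.i)) +
        finrank (ZMod p) (LinearMap.range (invMap S.π)) = finrank (ZMod p) ρZ.invariants := by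
  rw [LinearMap.exact_iff.mp (A.CG.exact_δ0_map1 S hY), ← Sha1_ker_δ0 S hY]
  exact LinearMap.finrank_range_add_finrank_ker (A.CG.δ0 S)

end Datum

end

end Fermat.Agent.S55.F
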