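/-
S55 / F-abs / FORMULA : for every short exact sequence `0 → R → P → M → 0`
`dim Ш²(M) = dim (Ш¹(M') ∩ ker(H¹M' → H¹P')) + rank(Ш²(P) → Ш²(M))`.
-/
import Fermat.Agent.S55.F.FO.Lam
import Fermat.Agent.S55.F.FO.Sha1
import Fermat.Agent.S55.F.LA.ChaseA
import Fermat.Agent.S55.F.LA.DualCount

set_option autoImplicit false

namespace Fermat.Agent.S55.F

open Representation Module

noncomputable section

namespace Datum

variable {p : ℕ} [Fact p.Prime] {A : Datum p}
variable {N N' : Type} [AddCommGroup N] [Module (ZMod p) N] [AddCommGroup N'] [Module (ZMod p) N']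

variable {R P M : Type} [AddCommGroup R] [Module (ZMod p) R] [AddCommGroup P] [Module (ZMod p) P]
  [AddCommGroup M] [Module (ZMod p) M] {ρR : Representation (ZMod p) A.G R}
  {ρP : Representation (ZMod p) A.G P} {ρM : Representation (ZMod p) A.G M}

theorem Numbers.formula (hN : A.Numbers) (S : SES ρR ρP ρM) (hP : A.CG.IsOpen ρP.ker)
    [Module.Finite (ZMod p) P] :
    finrank (ZMod p) (A.sha2 ρM) =
      finrank (ZMod p) (A.sha1 (dt A.ω ρM) ⊓ LinearMap.ker (A.CG.map1 (dtMap A.ω S.π)) :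
        Submodule _ (A.CG.H1 (dt A.ω ρM))) +
      finrank (ZMod p) ((A.sha2 ρP).map (A.CG.map2 S.π)) := by
  obtain ⟨trv, htr, hdual⟩ := hN.exists_trv
  have hne := hN.ne
  have finR : Module.Finite (ZMod p) R := S.finite_left
  have finM : Module.Finite (ZMod p) M := Module.Finite.of_surjective S.π.toLinearMap S.surj
  have hR : A.CG.IsOpen ρR.ker := A.CG.isOpen_mono S.ker_le_left hP
  have hM : A.CG.IsOpen ρM.ker := A.CG.isOpen_mono S.ker_le_right hP
  have finH2M : Module.Finite (ZMod p) (A.CG.H2 ρM) := (hN.finCohG ρM hM).2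
  have finP2R : Module.Finite (ZMod p) (A.P2 ρR) := hN.finite_P2 ρR hR
  -- the diagram chase
  have h1 := LA.chaseA (A.CG.map2 S.i) (A.CG.map2 S.π) (A.P2map S.i) (A.P2map S.π)
    (A.locTot2 ρR) (A.locTot2 ρP) (A.locTot2 ρM)
    (fun x => (A.P2map_locTot2 S.i x).symm) (fun x => (A.P2map_locTot2 S.π x).symm)
    (A.CG.exact_map2_map2 S hP) (hN.rightExact S hP) (A.P2map_exact S hP)
  -- counting with the perfect pairings
  obtain ⟨h2, h3, -⟩ := LA.dualCount (A.h0map S.i) (A.c0map S.i) (A.r0 ρR) (A.r0 ρP)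
    (fun x => c0map_r0 S.i x) (r0_injective hne ρR) (A.lam trv ρR) (A.lam trv ρP)
    (hN.lam_bijective trv htr ρR hR) (hN.lam_bijective trv htr ρP hP) (A.P2map S.i)
    (fun z φ => lam_P2map trv S.i z φ)
    (LinearMap.range (A.locTot2 ρR)) (LinearMap.range (A.locTot2 ρP))
    (fun z => hdual ρR hR z) (fun z => hdual ρP hP z)
  -- the kernel of `Ш¹(M') → H¹(P')`
  have h4 := finrank_sha1_inf_ker (S.dt A.ω) (isOpen_ker_dt A.ω A.CG A.ω_open ρP hP)
  have h5 : (⨅ v, (LinearMap.range (invMap (resMap (A.r v) (S.dt A.ω).π))).comap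
      (invRes (A.r v) (dt A.ω ρR)) : Submodule _ (dt A.ω ρR).invariants) =
      (LinearMap.range (A.c0map S.i)).comap (A.r0 ρR) := by
    ext x
    simp only [Submodule.mem_iInf, Submodule.mem_comap, LinearMap.mem_range]
    constructor
    · intro h
      choose y hy using h
      exact ⟨y, funext fun v => hy v⟩
    · rintro ⟨y, hy⟩ v
      exact ⟨y v, congrFun hy v⟩
  rw [h5] at h4
  have h6 : finrank (ZMod p) (LinearMap.range (invMap (S.dt A.ω).π)) =
      finrank (ZMod p) (LinearMap.range (A.h0map S.i)) := rfl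
  have h7 : finrank (ZMod p) (A.sha1 (dt A.ω ρM) ⊓ LinearMap.ker (A.CG.map1 (S.dt A.ω).i) :
      Submodule _ (A.CG.H1 (dt A.ω ρM))) =
      finrank (ZMod p) (A.sha1 (dt A.ω ρM) ⊓ LinearMap.ker (A.CG.map1 (dtMap A.ω S.π)) :
        Submodule _ (A.CG.H1 (dt A.ω ρM))) := rfl
  have h8 : finrank (ZMod p) (LinearMap.ker (A.locTot2 ρM)) = finrank (ZMod p) (A.sha2 ρM) := rfl
  have h9 : finrank (ZMod p) ((LinearMap.ker (A.locTot2 ρP)).map (A.CG.map2 S.π)) =
      finrank (ZMod p) ((A.sha2 ρP).map (A.CG.map2 S.π)) := rfl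
  linarith

end Datum

end

end Fermat.Agent.S55.F
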