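/-
S55 / F-abs / INEQ : if `P ->> M` kills `H¹(M')` then
`h¹(M') + rank(loc¹_M) ≤ dim Ш²(M) + dim P¹(M)`.
-/
import Fermat.Agent.S55.F.FO.Lam
import Fermat.Agent.S55.F.FO.Sha1
import Fermat.Agent.S55.F.LA.ChaseA
import Fermat.Agent.S55.F.LA.DualCount

set_option autoImplicit false

namespace Fermat.Agent.S55.F

open Representation Module

noncomputable section

namespace Datum

variable {p : ℕ} [Fact p.Prime] {A : Datum p}
variable {N N' : Type} [AddCommGroup N] [Module (ZMod p) N] [AddCommGroup N'] [Module (ZMod p) N']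

variable {R P M : Type} [AddCommGroup R] [Module (ZMod p) R] [AddCommGroup P] [Module (ZMod p) P]
  [AddCommGroup M] [Module (ZMod p) M] {ρR : Representation (ZMod p) A.G R}
  {ρP : Representation (ZMod p) A.G P} {ρM : Representation (ZMod p) A.G M}

theorem dP_exact (S : SES ρR ρP ρM) (hP : A.CG.IsOpen ρP.ker) :
    Function.Exact (A.dP S) (A.P2map S.i) := by
  have hv : ∀ v, Function.Exact ((A.CD v).δ1 (S.res (A.r v)))
      ((A.CD v).map2 (resMap (A.r v) S.i)) := fun v =>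
    (A.CD v).exact_δ1_map2 (S.res (A.r v)) (A.isOpen_ker_res ρP hP v)
  intro z
  constructor
  · intro hz
    have h1 : ∀ v, ∃ y, (A.CD v).δ1 (S.res (A.r v)) y = z v := fun v =>
      (hv v (z v)).1 (congrFun hz v)
    choose y hy using h1
    exact ⟨y, funext hy⟩
  · rintro ⟨y, rfl⟩
    funext v
    exact (hv v _).2 ⟨y v, rfl⟩

theorem dP_locTot1 (S : SES ρR ρP ρM) (hP : A.CG.IsOpen ρP.ker) (x : A.CG.H1 ρM) :
    A.dP S (A.locTot1 ρM x) = A.locTot2 ρR (A.CG.δ1 S x) := by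
  funext v
  exact ((A.loc v).loc2_δ1 S hP x).symm

theorem Numbers.ineq (hN : A.Numbers) (S : SES ρR ρP ρM) (hP : A.CG.IsOpen ρP.ker)
    [Module.Finite (ZMod p) P]
    (hkill : ∀ x : A.CG.H1 (dt A.ω ρM), A.CG.map1 (dtMap A.ω S.π) x = 0) :
    finrank (ZMod p) (A.CG.H1 (dt A.ω ρM)) + finrank (ZMod p) (LinearMap.range (A.locTot1 ρM)) ≤
      finrank (ZMod p) (A.sha2 ρM) + finrank (ZMod p) (A.P1 ρM) := by
  have hfR : Module.Finite (ZMod p) R := S.finite_left
  have hfM : Module.Finite (ZMod p) M := S.finite_right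
  have hR : A.CG.IsOpen ρR.ker := A.CG.isOpen_mono S.ker_le_left hP
  have hM : A.CG.IsOpen ρM.ker := A.CG.isOpen_mono S.ker_le_right hP
  have hfP2R : Module.Finite (ZMod p) (A.P2 ρR) := hN.finite_P2 ρR hR
  have hfP1M : Module.Finite (ZMod p) (A.P1 ρM) := hN.finite_P1 ρM hM
  have hfH2M : Module.Finite (ZMod p) (A.CG.H2 ρM) := (hN.finCohG ρM hM).2
  obtain ⟨trv, htr, hdual⟩ := hN.exists_trv
  -- counting with the perfect pairings
  obtain ⟨d1, -, d3⟩ := LA.dualCount (A.h0map S.i) (A.c0map S.i) (A.r0 ρR) (A.r0 ρP)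
    (fun x => c0map_r0 S.i x) (r0_injective hN.ne ρR) (A.lam trv ρR) (A.lam trv ρP)
    (hN.lam_bijective trv htr ρR hR) (hN.lam_bijective trv htr ρP hP) (A.P2map S.i)
    (fun z φ => lam_P2map trv S.i z φ) (LinearMap.range (A.locTot2 ρR))
    (LinearMap.range (A.locTot2 ρP)) (fun z => hdual ρR hR z) (fun z => hdual ρP hP z)
  -- `h¹(M') = dim h⁰(R) - rank (h⁰(P) → h⁰(R))`
  have e1 := finrank_ker_map1 (A := A) (S.dt A.ω) (isOpen_ker_dt A.ω A.CG A.ω_open ρP hP)
  have e2 : LinearMap.ker (A.CG.map1 (S.dt A.ω).i) = ⊤ := by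
    rw [LinearMap.ker_eq_top]
    exact LinearMap.ext hkill
  rw [e2, finrank_top] at e1
  have e3 : finrank (ZMod p) (A.CG.H1 (dt A.ω ρM)) +
      finrank (ZMod p) (LinearMap.range (A.h0map S.i)) = finrank (ZMod p) (A.h0 ρR) := e1
  -- the diagram chase
  have c := LA.chaseA (A.CG.map2 S.i) (A.CG.map2 S.π) (A.P2map S.i) (A.P2map S.π)
    (A.locTot2 ρR) (A.locTot2 ρP) (A.locTot2 ρM)
    (fun x => (A.P2map_locTot2 S.i x).symm) (fun x => (A.P2map_locTot2 S.π x).symm)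
    (A.CG.exact_map2_map2 S hP) (hN.rightExact S hP) (P2map_exact A S hP)
  have c' : finrank (ZMod p) (A.sha2 ρM) +
      finrank (ZMod p) (LinearMap.ker (A.P2map S.i) ⊔ LinearMap.range (A.locTot2 ρR) :
        Submodule (ZMod p) (A.P2 ρR)) =
      finrank (ZMod p) ((LinearMap.ker (A.locTot2 ρP)).map (A.CG.map2 S.π)) +
      finrank (ZMod p) ((LinearMap.range (A.locTot2 ρP)).comap (A.P2map S.i)) := c
  -- the local connecting map
  have s := LA.sup_le (A.dP S) (LinearMap.range (A.locTot1 ρM)) (LinearMap.range (A.locTot2 ρR))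
    (by
      rintro _ ⟨x, rfl⟩
      exact ⟨A.CG.δ1 S x, (dP_locTot1 S hP x).symm⟩)
  rw [← (LinearMap.exact_iff.1 (dP_exact S hP))] at s
  omega

end Datum

end

end Fermat.Agent.S55.F
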